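import Mathlib
import Fermat.Prelude.Def_AlgebraicCurve_Repartitions
import Fermat.Agent.S24.FFDeg

/-!
# S27, Part B: basic facts on divisors, `L(D)` and repartitions
Owner: helper94.
-/

set_option autoImplicit false

noncomputable section

namespace Fermat.Agent.S27.Riemann

open AlgebraicCurve Fermat.Agent.S24.FF Module

variable {K F : Type*} [Field K] [Field F] [Algebra K F]

/-! ### degree -/

section Degree
variable [IsAlgClosed K] [IsFF1 K F]

theorem degree_single_eq (v : Place K F) (n : ℤ) :
    Divisor.degree (Finsupp.single v n) = n := by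
  rw [Divisor.degree_single, deg_eq_one]; simp

theorem degree_eq_sum (D : Divisor K F) : Divisor.degree D = ∑ v ∈ D.support, D v := by
  simp only [Divisor.degree, Finsupp.liftAddHom_apply, Finsupp.sum, AddMonoidHom.coe_mulRight,
    deg_eq_one, Nat.cast_one, mul_one]

theorem degree_eq_sum_of_subset (D : Divisor K F) (s : Finset (Place K F))
    (hs : D.support ⊆ s) : Divisor.degree D = ∑ v ∈ s, D v := by
  rw [degree_eq_sum]
  exact Finset.sum_subset hs fun v _ hv => by simpa using hv

theorem degree_nonneg {D : Divisor K F} (hD : 0 ≤ D) : 0 ≤ Divisor.degree D := by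
  rw [degree_eq_sum]
  exact Finset.sum_nonneg fun v _ => hD v

theorem eq_zero_of_degree_eq_zero {D : Divisor K F} (hD : 0 ≤ D) (h : Divisor.degree D = 0) :
    D = 0 := by
  rw [degree_eq_sum] at h
  have := (Finset.sum_eq_zero_iff_of_nonneg (fun v _ => hD v)).mp h
  ext v
  by_cases hv : v ∈ D.support
  · exact this v hv
  · simpa using hv

/-- induction on effective divisors, adding one place at a time -/
theorem eff_induction {P : Divisor K F → Prop} (h0 : P 0)
    (hstep : ∀ (E : Divisor K F) (v : Place K F), 0 ≤ E → P E → P (E + Finsupp.single v 1))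
    (E : Divisor K F) (hE : 0 ≤ E) : P E := by
  obtain ⟨n, hn⟩ : ∃ n : ℕ, Divisor.degree E = n :=
    ⟨(Divisor.degree E).toNat, (Int.toNat_of_nonneg (degree_nonneg hE)).symm⟩
  induction n generalizing E with
  | zero =>
    have := eq_zero_of_degree_eq_zero hE (by simpa using hn)
    rw [this]; exact h0
  | succ n ih =>
    have hne : E ≠ 0 := by
      rintro rfl
      simp at hn
      omega
    obtain ⟨v, hv⟩ := Finsupp.ne_iff.mp hne
    have hv' : 1 ≤ E v := by
      have h1 : (0 : ℤ) ≤ E v := hE v
      have h2 : E v ≠ 0 := hv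
      omega
    have hE' : 0 ≤ E - Finsupp.single v 1 := by
      intro w
      classical
      rw [Finsupp.sub_apply, Finsupp.single_apply]
      have h1 : (0 : ℤ) ≤ E w := hE w
      split_ifs with hw
      · subst hw; simpa using hv'
      · simpa using h1
    have hdeg : Divisor.degree (E - Finsupp.single v 1) = n := by
      rw [map_sub, degree_single_eq, hn]; push_cast; ring
    have := hstep _ v hE' (ih _ hE' hdeg)
    rwa [sub_add_cancel] at this

end Degree

/-! ### the divisor of a function -/

section DivOf
variable [CharZero K] [IsAlgClosed K] [IsFF1 K F]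

/-- the principal divisor of `z` (zero divisor for `z = 0`) -/
def divOf (z : F) : Divisor K F :=
  Finsupp.ofSupportFinite (fun v => v.ord z) (finite_ord_ne_zero (K := K) z)

@[simp] theorem divOf_apply (z : F) (v : Place K F) : divOf z v = v.ord z := rfl

theorem degree_divOf (z : F) : Divisor.degree (divOf (K := K) z) = 0 := by
  rw [degree_eq_sum]
  exact sum_ord_eq_zero z _ (fun v hv => by simpa using hv)

/-- the pole divisor of `z` -/
def poleDiv (z : F) : Divisor K F :=
  Finsupp.ofSupportFinite (fun v => max 0 (-v.ord z))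
    ((finite_ord_ne_zero (K := K) z).subset fun v hv => by
      simp only [Function.mem_support] at hv
      show v.ord z ≠ 0
      intro h
      rw [h] at hv
      simp at hv)

@[simp] theorem poleDiv_apply (z : F) (v : Place K F) : poleDiv z v = max 0 (-v.ord z) := rfl

theorem poleDiv_nonneg (z : F) : 0 ≤ poleDiv (K := K) z := fun v => by simp

theorem degree_poleDiv (t : F) (ht : Transcendental K t) :
    Divisor.degree (poleDiv (K := K) t) = (Module.finrank (IntermediateField.adjoin K {t}) F : ℤ) := by
  obtain ⟨s, hs, hsum⟩ := exists_finset_ord_neg t ht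
  rw [degree_eq_sum_of_subset _ s]
  · have h1 : (Module.finrank (IntermediateField.adjoin K {t}) F : ℤ) = ∑ v ∈ s, -v.ord t := by
      rw [Finset.sum_neg_distrib, hsum, neg_neg]
    rw [h1]
    refine Finset.sum_congr rfl fun v hv => ?_
    have := (hs v).mp hv
    rw [poleDiv_apply, max_eq_right (by omega)]
  · intro v hv
    rw [hs]
    have : poleDiv t v ≠ 0 := by simpa using hv
    rw [poleDiv_apply] at this
    by_contra hcon
    exact this (max_eq_left (by omega))

end DivOf

/-! ### the local lemma -/

section Local
variable [IsAlgClosed K] [IsFF1 K F]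

/-- If `ord_v f = n` and `ord_v a ≥ n`, some `a - c f` has order `> n`. -/
theorem exists_const_sub (v : Place K F) {a f : F} {n : ℤ} (hf0 : f ≠ 0) (hf : v.ord f = n)
    (ha : a = 0 ∨ n ≤ v.ord a) :
    ∃ c : K, a - c • f = 0 ∨ n + 1 ≤ v.ord (a - c • f) := by
  rcases eq_or_ne a 0 with rfl | ha0
  · exact ⟨0, by simp⟩
  have ha' : n ≤ v.ord a := ha.resolve_left ha0
  have hx : 0 ≤ v.ord (a / f) := by
    rw [div_eq_mul_inv, v.ord_mul ha0 (inv_ne_zero hf0), v.ord_inv, hf]; omega
  obtain ⟨c, hc⟩ := exists_const_of_ord_nonneg v hx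
  refine ⟨c, ?_⟩
  have key : a - c • f = f * (a / f - algebraMap K F c) := by
    rw [Algebra.smul_def]; field_simp
  rcases hc with hc | hc
  · left; rw [key, hc, sub_self, mul_zero]
  · right
    have hne : a / f - algebraMap K F c ≠ 0 := ne_zero_of_ord_ne_zero v (by omega)
    rw [key, v.ord_mul hf0 hne, hf]; omega

end Local

end Fermat.Agent.S27.Riemann
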