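import Mathlib

/-!
# S27, Part B: small linear algebra lemmas (possibly infinite dimensional ambient space)
Owner: helper94.
-/

set_option autoImplicit false

noncomputable section

namespace Fermat.Agent.S27.Riemann

open Module Submodule

variable {K V : Type*} [Field K] [AddCommGroup V] [Module K V]

theorem finite_and_finrank_le_succ (P P' : Submodule K V) (f : V) [Module.Finite K P]
    (h : P' ≤ P ⊔ K ∙ f) : Module.Finite K P' ∧ finrank K P' ≤ finrank K P + 1 := by
  have hfin : Module.Finite K (P ⊔ K ∙ f : Submodule K V) := inferInstance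
  refine ⟨Submodule.finiteDimensional_of_le h, ?_⟩
  calc finrank K P' ≤ finrank K (P ⊔ K ∙ f : Submodule K V) := Submodule.finrank_mono h
    _ ≤ finrank K P + finrank K (K ∙ f) := Submodule.finrank_add_le_finrank_add_finrank _ _
    _ ≤ finrank K P + 1 := by
        gcongr
        exact (finrank_span_le_card ({f} : Set V)).trans (by simp)

theorem finrank_eq_succ (P P' : Submodule K V) (f : V) [Module.Finite K P]
    (hle : P ≤ P') (hf : f ∈ P') (hf' : f ∉ P) (h : P' ≤ P ⊔ K ∙ f) :
    finrank K P' = finrank K P + 1 := by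
  obtain ⟨hfin, hle'⟩ := finite_and_finrank_le_succ P P' f h
  have hlt : P < P' := lt_of_le_of_ne hle (fun h => hf' (h ▸ hf))
  have := Submodule.finrank_lt_finrank_of_lt hlt
  omega

/-- quotient version: enlarging the submodule by one new vector lowers the codimension by one -/
theorem finite_quotient_iff (P P' : Submodule K V) (e : V)
    (hle : P ≤ P') (h : P' ≤ P ⊔ K ∙ e) :
    Module.Finite K (V ⧸ P) ↔ Module.Finite K (V ⧸ P') := by
  constructor
  · intro _
    exact Module.Finite.of_surjective (Submodule.factor hle) (Submodule.factor_surjective hle)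
  · intro hfin
    let W : Submodule K (V ⧸ P) := P'.map P.mkQ
    have hW : W ≤ K ∙ (P.mkQ e) := by
      rintro _ ⟨x, hx, rfl⟩
      obtain ⟨y, hy, z, hz, rfl⟩ := Submodule.mem_sup.mp (h hx)
      obtain ⟨c, rfl⟩ := Submodule.mem_span_singleton.mp hz
      rw [map_add, show P.mkQ y = 0 from (Submodule.Quotient.mk_eq_zero P).mpr hy, zero_add, map_smul]
      exact Submodule.smul_mem _ _ (Submodule.mem_span_singleton_self _)
    have : Module.Finite K W := Submodule.finiteDimensional_of_le hW
    have : Module.Finite K ((V ⧸ P) ⧸ W) :=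
      Module.Finite.equiv (Submodule.quotientQuotientEquivQuotient P P' hle).symm
    exact Module.Finite.of_submodule_quotient W

theorem finrank_quotient_eq_succ (P P' : Submodule K V) (e : V)
    (hle : P ≤ P') (he : e ∈ P') (he' : e ∉ P) (h : P' ≤ P ⊔ K ∙ e)
    [Module.Finite K (V ⧸ P)] :
    finrank K (V ⧸ P) = finrank K (V ⧸ P') + 1 := by
  let W : Submodule K (V ⧸ P) := P'.map P.mkQ
  have hW : W = K ∙ (P.mkQ e) := by
    apply le_antisymm
    · rintro _ ⟨x, hx, rfl⟩
      obtain ⟨y, hy, z, hz, rfl⟩ := Submodule.mem_sup.mp (h hx)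
      obtain ⟨c, rfl⟩ := Submodule.mem_span_singleton.mp hz
      rw [map_add, show P.mkQ y = 0 from (Submodule.Quotient.mk_eq_zero P).mpr hy, zero_add, map_smul]
      exact Submodule.smul_mem _ _ (Submodule.mem_span_singleton_self _)
    · rw [Submodule.span_singleton_le_iff_mem]
      exact ⟨e, he, rfl⟩
  have hne : P.mkQ e ≠ 0 := by
    intro h0
    exact he' ((Submodule.Quotient.mk_eq_zero P).mp h0)
  have h1 : finrank K W = 1 := by rw [hW]; exact finrank_span_singleton hne
  have h2 := Submodule.finrank_quotient_add_finrank W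
  have h3 : finrank K ((V ⧸ P) ⧸ W) = finrank K (V ⧸ P') :=
    (Submodule.quotientQuotientEquivQuotient P P' hle).finrank_eq
  omega

end Fermat.Agent.S27.Riemann
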