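import Mathlib
import Fermat.Agent.S27.Riemann.LinAlg
import Fermat.Agent.S27.Riemann.Basic

/-!
# S27, Part B: the spaces `L(D)`
Owner: helper94.
-/

set_option autoImplicit false

noncomputable section

namespace Fermat.Agent.S27.Riemann

open AlgebraicCurve Fermat.Agent.S24.FF Module

variable {K F : Type*} [Field K] [Field F] [Algebra K F]

theorem L_mono {D D' : Divisor K F} (h : D ≤ D') :
    riemannRochSpace D ≤ riemannRochSpace D' := by
  intro f hf
  rw [mem_riemannRochSpace_iff] at hf ⊢
  intro v
  rcases hf v with h0 | h1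
  · exact Or.inl h0
  · right
    have : D v ≤ D' v := h v
    omega

theorem le_add_single (D : Divisor K F) (v : Place K F) : D ≤ D + Finsupp.single v 1 := by
  intro w
  classical
  rw [Finsupp.add_apply, Finsupp.single_apply]
  split_ifs <;> simp

theorem add_single_apply_self (D : Divisor K F) (v : Place K F) :
    (D + Finsupp.single v 1 : Divisor K F) v = D v + 1 := by
  simp

theorem add_single_apply_of_ne (D : Divisor K F) {v w : Place K F} (h : w ≠ v) :
    (D + Finsupp.single v 1 : Divisor K F) w = D w := by
  rw [Finsupp.add_apply, Finsupp.single_eq_of_ne h, add_zero]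

theorem ord_eq_of_mem_of_not_mem {D : Divisor K F} {v : Place K F} {f : F}
    (hf : f ∈ riemannRochSpace (D + Finsupp.single v 1)) (hf' : f ∉ riemannRochSpace D) :
    f ≠ 0 ∧ v.ord f = -(D v + 1) := by
  have hf0 : f ≠ 0 := by
    rintro rfl
    exact hf' (zero_mem _)
  refine ⟨hf0, ?_⟩
  rw [mem_riemannRochSpace_iff] at hf hf'
  push Not at hf'
  obtain ⟨w, -, hw⟩ := hf'
  have hw' := (hf w).resolve_left hf0
  by_cases hwv : w = v
  · subst hwv
    rw [add_single_apply_self] at hw'
    omega
  · rw [add_single_apply_of_ne D hwv] at hw'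
    omega

section
variable [IsAlgClosed K] [IsFF1 K F]

theorem L_step_le {D : Divisor K F} {v : Place K F} {f : F}
    (hf : f ∈ riemannRochSpace (D + Finsupp.single v 1)) (hf' : f ∉ riemannRochSpace D) :
    riemannRochSpace (D + Finsupp.single v 1) ≤ riemannRochSpace D ⊔ K ∙ f := by
  obtain ⟨hf0, hord⟩ := ord_eq_of_mem_of_not_mem hf hf'
  intro g hg
  have hg' := (mem_riemannRochSpace_iff.mp hg) v
  rw [add_single_apply_self] at hg'
  obtain ⟨c, hc⟩ := exists_const_sub v hf0 hord hg'
  have hmem : g - c • f ∈ riemannRochSpace D := by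
    rw [mem_riemannRochSpace_iff]
    intro w
    by_cases hwv : w = v
    · subst hwv
      rcases hc with hc | hc
      · exact Or.inl hc
      · right; omega
    · have h1 : g - c • f ∈ riemannRochSpace (D + Finsupp.single v 1) :=
        sub_mem hg (Submodule.smul_mem _ _ hf)
      have h2 := (mem_riemannRochSpace_iff.mp h1) w
      rwa [add_single_apply_of_ne D hwv] at h2
  rw [Submodule.mem_sup]
  exact ⟨g - c • f, hmem, c • f, Submodule.smul_mem _ _ (Submodule.mem_span_singleton_self f),
    by ring⟩

theorem exists_L_step_le (D : Divisor K F) (v : Place K F) :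
    ∃ f : F, riemannRochSpace (D + Finsupp.single v 1) ≤ riemannRochSpace D ⊔ K ∙ f := by
  by_cases h : riemannRochSpace (D + Finsupp.single v 1) ≤ riemannRochSpace D
  · exact ⟨0, h.trans le_sup_left⟩
  · obtain ⟨f, hf, hf'⟩ := SetLike.not_le_iff_exists.mp h
    exact ⟨f, L_step_le hf hf'⟩

theorem finite_L_step (D : Divisor K F) (v : Place K F) [Module.Finite K (riemannRochSpace D)] :
    Module.Finite K (riemannRochSpace (D + Finsupp.single v 1)) ∧
      finrank K (riemannRochSpace (D + Finsupp.single v 1)) ≤
        finrank K (riemannRochSpace D) + 1 := by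
  obtain ⟨f, hf⟩ := exists_L_step_le D v
  exact finite_and_finrank_le_succ _ _ f hf

end

section
variable [CharZero K] [IsAlgClosed K] [IsFF1 K F]

theorem L_eq_bot_of_degree_neg {D : Divisor K F} (h : Divisor.degree D < 0) :
    riemannRochSpace D = ⊥ := by
  rw [eq_bot_iff]
  intro f hf
  rw [Submodule.mem_bot]
  by_contra hf0
  have h1 : 0 ≤ D + divOf f := by
    intro v
    have := ((mem_riemannRochSpace_iff.mp hf) v).resolve_left hf0
    rw [Finsupp.add_apply, divOf_apply, Finsupp.zero_apply]
    omega
  have h2 := degree_nonneg h1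
  rw [map_add, degree_divOf] at h2
  omega

theorem exists_pole {t : F} (ht : Transcendental K t) : ∃ v : Place K F, v.ord t < 0 := by
  obtain ⟨s, hs, hsum⟩ := exists_finset_ord_neg t ht
  have : FiniteDimensional (IntermediateField.adjoin K {t}) F := IsFF1.finite t ht
  have hpos : 0 < Module.finrank (IntermediateField.adjoin K {t}) F := Module.finrank_pos
  have hne : s.Nonempty := by
    rw [Finset.nonempty_iff_ne_empty]
    rintro rfl
    simp at hsum
    omega
  obtain ⟨v, hv⟩ := hne
  exact ⟨v, (hs v).mp hv⟩

theorem L_zero : riemannRochSpace (0 : Divisor K F) = K ∙ (1 : F) := by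
  apply le_antisymm
  · intro f hf
    rcases exists_const_or_transcendental (K := K) f with ⟨c, rfl⟩ | hft
    · rw [Submodule.mem_span_singleton]
      exact ⟨c, by rw [Algebra.smul_def, mul_one]⟩
    · exfalso
      obtain ⟨v, hv⟩ := exists_pole hft
      have hf0 : f ≠ 0 := ne_zero_of_ord_ne_zero v (by omega)
      have := ((mem_riemannRochSpace_iff.mp hf) v).resolve_left hf0
      simp at this
      omega
  · rw [Submodule.span_singleton_le_iff_mem, mem_riemannRochSpace_iff]
    intro v
    right
    simp

theorem finrank_L_zero : finrank K (riemannRochSpace (0 : Divisor K F)) = 1 := by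
  rw [L_zero]
  exact finrank_span_singleton one_ne_zero

variable (hF : ∃ x : F, Transcendental K x)
include hF

theorem nonempty_place : Nonempty (Place K F) := by
  obtain ⟨x, hx⟩ := hF
  obtain ⟨v, -⟩ := exists_pole hx
  exact ⟨v⟩

theorem finite_L (D : Divisor K F) : Module.Finite K (riemannRochSpace D) := by
  obtain ⟨v₀⟩ := nonempty_place hF
  set m : ℤ := max (Divisor.degree D + 1) 0 with hm
  set D₀ : Divisor K F := D - Finsupp.single v₀ m with hD₀
  have hdeg : Divisor.degree D₀ < 0 := by
    rw [hD₀, map_sub, degree_single_eq]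
    have := le_max_left (Divisor.degree D + 1) 0
    omega
  have key : ∀ E : Divisor K F, 0 ≤ E → Module.Finite K (riemannRochSpace (D₀ + E)) := by
    intro E hE
    refine eff_induction (P := fun E => Module.Finite K (riemannRochSpace (D₀ + E))) ?_ ?_ E hE
    · rw [add_zero, L_eq_bot_of_degree_neg hdeg]
      infer_instance
    · intro E v _ ih
      rw [← add_assoc]
      exact (finite_L_step (D₀ + E) v).1
  have hE : (0 : Divisor K F) ≤ Finsupp.single v₀ m := by
    intro w
    classical
    rw [Finsupp.single_apply]
    split_ifs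
    · exact le_max_right _ _
    · exact le_rfl
  have := key _ hE
  rwa [hD₀, sub_add_cancel] at this

theorem finrank_L_step_le (D : Divisor K F) (v : Place K F) :
    finrank K (riemannRochSpace (D + Finsupp.single v 1)) ≤
      finrank K (riemannRochSpace D) + 1 := by
  have := finite_L hF D
  exact (finite_L_step D v).2

theorem finrank_L_mono {D D' : Divisor K F} (h : D ≤ D') :
    finrank K (riemannRochSpace D) ≤ finrank K (riemannRochSpace D') := by
  have := finite_L hF D'
  exact Submodule.finrank_mono (L_mono h)

theorem finrank_L_add_le (D E : Divisor K F) (hE : 0 ≤ E) :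
    (finrank K (riemannRochSpace (D + E)) : ℤ) ≤
      finrank K (riemannRochSpace D) + Divisor.degree E := by
  refine eff_induction (P := fun E => (finrank K (riemannRochSpace (D + E)) : ℤ) ≤
      finrank K (riemannRochSpace D) + Divisor.degree E) ?_ ?_ E hE
  · rw [add_zero, map_zero, add_zero]
  · intro E v _ ih
    rw [← add_assoc, map_add, degree_single_eq]
    have := finrank_L_step_le hF (D + E) v
    omega

omit hF in
/-- linear equivalence -/
def LEquivOfDiv (D : Divisor K F) {z : F} (hz : z ≠ 0) :
    riemannRochSpace (D + divOf z) ≃ₗ[K] riemannRochSpace D where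
  toFun f := ⟨z * f.1, by
    have hf := mem_riemannRochSpace_iff.mp f.2
    rw [mem_riemannRochSpace_iff]
    intro v
    rcases hf v with h0 | h1
    · left; rw [h0, mul_zero]
    · by_cases hf0 : f.1 = 0
      · left; rw [hf0, mul_zero]
      · right
        rw [v.ord_mul hz hf0]
        rw [Finsupp.add_apply, divOf_apply] at h1
        omega⟩
  invFun f := ⟨z⁻¹ * f.1, by
    have hf := mem_riemannRochSpace_iff.mp f.2
    rw [mem_riemannRochSpace_iff]
    intro v
    rcases hf v with h0 | h1
    · left; rw [h0, mul_zero]
    · by_cases hf0 : f.1 = 0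
      · left; rw [hf0, mul_zero]
      · right
        rw [v.ord_mul (inv_ne_zero hz) hf0, v.ord_inv, Finsupp.add_apply, divOf_apply]
        omega⟩
  map_add' f g := by ext; simp [mul_add]
  map_smul' c f := by ext; simp
  left_inv f := by ext; simp [hz]
  right_inv f := by ext; simp [hz]

omit hF in
theorem finrank_L_add_divOf (D : Divisor K F) {z : F} (hz : z ≠ 0) :
    finrank K (riemannRochSpace (D + divOf z)) = finrank K (riemannRochSpace D) :=
  (LEquivOfDiv D hz).finrank_eq

end

end Fermat.Agent.S27.Riemann
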