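import Mathlib
import Fermat.Agent.S27.Riemann.LSpace

/-!
# S27, Part B: repartitions, one-step analysis of `H1`
Owner: helper94.
-/

set_option autoImplicit false

noncomputable section

namespace Fermat.Agent.S27.Riemann

open AlgebraicCurve Fermat.Agent.S24.FF Module

variable {K F : Type*} [Field K] [Field F] [Algebra K F]

/-- the submodule `A(D) + F` of the repartition ring -/
abbrev PD (D : Divisor K F) : Submodule K ↥(repartitions K F) :=
  repartitionsOf D ⊔ principalRepartitions K F

theorem PD_mono {D D' : Divisor K F} (h : D ≤ D') : PD D ≤ PD D' :=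
  sup_le_sup_right (repartitionsOf_mono h) _

/-- the constant repartition -/
abbrev const (f : F) : ↥(repartitions K F) := algebraMap F ↥(repartitions K F) f

@[simp] theorem const_apply (f : F) (v : Place K F) :
    ((const f : ↥(repartitions K F)) : Place K F → F) v = f := rfl

theorem const_mem_principal (f : F) : (const f : ↥(repartitions K F)) ∈ principalRepartitions K F :=
  mem_principalRepartitions_iff.mpr ⟨f, rfl⟩

open Classical in
/-- the repartition with value `a` at `v` and `0` elsewhere -/
def eAt (v : Place K F) (a : F) : ↥(repartitions K F) :=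
  ⟨Pi.single v a, mem_repartitions_of_finite_ord <| (Set.finite_singleton v).subset fun w hw => by
    by_contra hne
    have hne' : w ≠ v := hne
    have hw' : w.ord ((Pi.single v a : Place K F → F) w) < 0 := hw
    rw [Pi.single_eq_of_ne hne'] at hw'
    simp at hw'⟩

@[simp] theorem eAt_apply_self (v : Place K F) (a : F) :
    ((eAt v a : ↥(repartitions K F)) : Place K F → F) v = a := by
  simp [eAt]

theorem eAt_apply_of_ne {v w : Place K F} (h : w ≠ v) (a : F) :
    ((eAt v a : ↥(repartitions K F)) : Place K F → F) w = 0 := by
  classical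
  show (Pi.single v a : Place K F → F) w = 0
  exact Pi.single_eq_of_ne (M := fun _ => F) h a

@[simp] theorem coe_sub_apply (α β : ↥(repartitions K F)) (v : Place K F) :
    ((α - β : ↥(repartitions K F)) : Place K F → F) v =
      (α : Place K F → F) v - (β : Place K F → F) v := rfl

@[simp] theorem coe_add_apply (α β : ↥(repartitions K F)) (v : Place K F) :
    ((α + β : ↥(repartitions K F)) : Place K F → F) v =
      (α : Place K F → F) v + (β : Place K F → F) v := rfl

@[simp] theorem coe_smul_apply (c : K) (α : ↥(repartitions K F)) (v : Place K F) :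
    ((c • α : ↥(repartitions K F)) : Place K F → F) v = c • (α : Place K F → F) v := rfl

section
variable [CharZero K] [IsAlgClosed K] [IsFF1 K F]

theorem mem_repartitions_iff {α : Place K F → F} :
    α ∈ repartitions K F ↔ {v : Place K F | v.ord (α v) < 0}.Finite := by
  refine ⟨fun h => ?_, mem_repartitions_of_finite_ord⟩
  induction h using Algebra.adjoin_induction with
  | mem x hx =>
    have hx : {v : Place K F | ¬v.adicValuation (x v) ≤ 1}.Finite := hx
    rwa [show {v : Place K F | ¬v.adicValuation (x v) ≤ 1}
        = {v : Place K F | v.ord (x v) < 0} from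
      Set.ext fun v => v.not_adicValuation_le_one_iff] at hx
  | algebraMap f =>
    refine (finite_ord_ne_zero (K := K) f).subset fun v hv => ?_
    have hv' : v.ord f < 0 := hv
    show v.ord f ≠ 0
    omega
  | add x y _ _ hx hy =>
    refine (hx.union hy).subset fun v hv => ?_
    have hv' : v.ord (x v + y v) < 0 := hv
    have hne : x v + y v ≠ 0 := ne_zero_of_ord_ne_zero v (by omega)
    have := min_ord_le_ord_add v hne
    rcases min_le_iff.mp this with h | h
    · left; show v.ord (x v) < 0; omega
    · right; show v.ord (y v) < 0; omega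
  | mul x y _ _ hx hy =>
    refine (hx.union hy).subset fun v hv => ?_
    have hv' : v.ord (x v * y v) < 0 := hv
    have hne : x v * y v ≠ 0 := ne_zero_of_ord_ne_zero v (by omega)
    rw [v.ord_mul (left_ne_zero_of_mul hne) (right_ne_zero_of_mul hne)] at hv'
    by_cases h : v.ord (x v) < 0
    · left; exact h
    · right; show v.ord (y v) < 0; omega

/-- every repartition lies in `A(D₀ + E)` for some effective `E` -/
theorem exists_eff_mem_repartitionsOf (D₀ : Divisor K F) (α : ↥(repartitions K F)) :
    ∃ E : Divisor K F, 0 ≤ E ∧ α ∈ repartitionsOf (D₀ + E) := by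
  have hfin := mem_repartitions_iff.mp α.2
  let E : Divisor K F := Finsupp.ofSupportFinite
    (fun v => max 0 (-v.ord ((α : Place K F → F) v) - D₀ v))
    ((hfin.union D₀.support.finite_toSet).subset fun v hv => by
      simp only [Function.mem_support] at hv
      by_contra hcon
      rw [Set.mem_union, not_or] at hcon
      have h1 : ¬ v.ord ((α : Place K F → F) v) < 0 := hcon.1
      have h2 : D₀ v = 0 := by simpa using hcon.2
      apply hv
      rw [h2]
      exact max_eq_left (by omega))
  refine ⟨E, fun v => le_max_left _ _, ?_⟩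
  rw [mem_repartitionsOf_iff]
  intro v
  right
  have : -v.ord ((α : Place K F → F) v) - D₀ v ≤ E v := le_max_right _ _
  rw [Finsupp.add_apply]
  omega

end

section
variable [IsAlgClosed K] [IsFF1 K F]

/-- Case A: a new function in `L(D+v)` absorbs the new repartitions. -/
theorem repartitionsOf_step_le_of_new {D : Divisor K F} {v : Place K F} {f : F}
    (hf : f ∈ riemannRochSpace (D + Finsupp.single v 1)) (hf' : f ∉ riemannRochSpace D) :
    repartitionsOf (D + Finsupp.single v 1) ≤ PD D := by
  obtain ⟨hf0, hord⟩ := ord_eq_of_mem_of_not_mem hf hf'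
  intro α hα
  have hα' := (mem_repartitionsOf_iff.mp hα) v
  rw [add_single_apply_self] at hα'
  obtain ⟨c, hc⟩ := exists_const_sub v hf0 hord hα'
  have hmem : α - c • const f ∈ repartitionsOf D := by
    rw [mem_repartitionsOf_iff]
    intro w
    rw [coe_sub_apply, coe_smul_apply, const_apply]
    by_cases hwv : w = v
    · subst hwv
      rcases hc with hc | hc
      · exact Or.inl hc
      · right; omega
    · by_cases h0 : (α : Place K F → F) w - c • f = 0
      · exact Or.inl h0
      right
      have h1 := (mem_repartitionsOf_iff.mp hα) w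
      have h2 := (mem_riemannRochSpace_iff.mp
        ((riemannRochSpace (D + Finsupp.single v 1)).smul_mem c hf)) w
      rw [add_single_apply_of_ne D hwv] at h1 h2
      have h3 := min_ord_le_ord_add w (f := (α : Place K F → F) w) (g := -(c • f))
        (by rwa [← sub_eq_add_neg])
      rw [← sub_eq_add_neg, ord_neg] at h3
      rcases h1 with h1 | h1
      · rcases h2 with h2 | h2
        · exact absurd (by rw [h1, h2, sub_zero]) h0
        · rw [h1, zero_sub, ord_neg]; exact h2
      · rcases h2 with h2 | h2
        · rw [h2, sub_zero]; exact h1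
        · rcases min_le_iff.mp h3 with h | h <;> omega
  rw [Submodule.mem_sup]
  exact ⟨α - c • const f, hmem, c • const f,
    Submodule.smul_mem _ _ (const_mem_principal f), by abel⟩

theorem PD_step_eq_of_new {D : Divisor K F} {v : Place K F} {f : F}
    (hf : f ∈ riemannRochSpace (D + Finsupp.single v 1)) (hf' : f ∉ riemannRochSpace D) :
    PD (D + Finsupp.single v 1) = PD D :=
  le_antisymm (sup_le (repartitionsOf_step_le_of_new hf hf') le_sup_right)
    (PD_mono (le_add_single D v))

omit [IsAlgClosed K] [IsFF1 K F] in
theorem exists_ord_eq (v : Place K F) (n : ℤ) : ∃ t : F, t ≠ 0 ∧ v.ord t = n := by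
  obtain ⟨π, hπ⟩ := exists_ord_eq_one v
  have hπ0 : π ≠ 0 := ne_zero_of_ord_ne_zero v (by omega)
  exact ⟨π ^ n, zpow_ne_zero _ hπ0, by rw [v.ord_zpow, hπ, mul_one]⟩

omit [IsAlgClosed K] [IsFF1 K F] in
theorem eAt_mem_repartitionsOf {D : Divisor K F} {v : Place K F} {t : F}
    (ht : -D v ≤ v.ord t) : eAt v t ∈ repartitionsOf D := by
  rw [mem_repartitionsOf_iff]
  intro w
  by_cases hwv : w = v
  · subst hwv
    right
    rwa [eAt_apply_self]
  · left
    exact eAt_apply_of_ne hwv t

/-- the new repartitions are spanned by one element modulo the old ones -/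
theorem repartitionsOf_step_le {D : Divisor K F} {v : Place K F} {t : F} (ht0 : t ≠ 0)
    (ht : v.ord t = -(D v + 1)) :
    repartitionsOf (D + Finsupp.single v 1) ≤ repartitionsOf D ⊔ K ∙ (eAt v t) := by
  intro α hα
  have hα' := (mem_repartitionsOf_iff.mp hα) v
  rw [add_single_apply_self] at hα'
  obtain ⟨c, hc⟩ := exists_const_sub v ht0 ht hα'
  have hmem : α - c • eAt v t ∈ repartitionsOf D := by
    rw [mem_repartitionsOf_iff]
    intro w
    rw [coe_sub_apply, coe_smul_apply]
    by_cases hwv : w = v
    · subst hwv
      rw [eAt_apply_self]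
      rcases hc with hc | hc
      · exact Or.inl hc
      · right; omega
    · rw [eAt_apply_of_ne hwv, smul_zero, sub_zero]
      have h1 := (mem_repartitionsOf_iff.mp hα) w
      rwa [add_single_apply_of_ne D hwv] at h1
  rw [Submodule.mem_sup]
  exact ⟨α - c • eAt v t, hmem, c • eAt v t,
    Submodule.smul_mem _ _ (Submodule.mem_span_singleton_self _), by abel⟩

theorem PD_step_le {D : Divisor K F} {v : Place K F} {t : F} (ht0 : t ≠ 0)
    (ht : v.ord t = -(D v + 1)) :
    PD (D + Finsupp.single v 1) ≤ PD D ⊔ K ∙ (eAt v t) := by
  refine sup_le ((repartitionsOf_step_le ht0 ht).trans ?_) (le_sup_right.trans le_sup_left)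
  exact sup_le_sup_right le_sup_left _

omit [IsAlgClosed K] [IsFF1 K F] in
/-- Case B: no new function, so the new repartition is not in `A(D) + F`. -/
theorem eAt_not_mem_PD {D : Divisor K F} {v : Place K F} {t : F} (ht0 : t ≠ 0)
    (ht : v.ord t = -(D v + 1))
    (hL : riemannRochSpace (D + Finsupp.single v 1) ≤ riemannRochSpace D) :
    eAt v t ∉ PD D := by
  intro hmem
  obtain ⟨β, hβ, γ, hγ, hsum⟩ := Submodule.mem_sup.mp hmem
  obtain ⟨f, hf⟩ := mem_principalRepartitions_iff.mp hγ
  have hval : ∀ w : Place K F, (β : Place K F → F) w + f =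
      ((eAt v t : ↥(repartitions K F)) : Place K F → F) w := by
    intro w
    rw [← hsum, coe_add_apply, hf]
  have hβ' := mem_repartitionsOf_iff.mp hβ
  -- order of `f` at `v`
  have hfv : f = t - (β : Place K F → F) v := by
    have := hval v
    rw [eAt_apply_self] at this
    rw [← this]; ring
  have hordv : v.ord f = -(D v + 1) := by
    rcases hβ' v with h | h
    · rw [hfv, h, sub_zero, ht]
    · rw [hfv, sub_eq_add_neg, ord_add_eq_of_lt v ht0 (by rw [ord_neg, ht]; omega), ht]
  have hf0 : f ≠ 0 := by
    rintro rfl
    rw [Place.ord_zero] at hordv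
    have h1 := hval v
    rw [eAt_apply_self, add_zero] at h1
    rcases hβ' v with h | h
    · exact ht0 (by rw [← h1, h])
    · rw [h1, ht] at h; omega
  have hfL : f ∈ riemannRochSpace (D + Finsupp.single v 1) := by
    rw [mem_riemannRochSpace_iff]
    intro w
    right
    by_cases hwv : w = v
    · subst hwv
      rw [add_single_apply_self, hordv]
    · rw [add_single_apply_of_ne D hwv]
      have h1 := hval w
      rw [eAt_apply_of_ne hwv] at h1
      have h2 : f = -(β : Place K F → F) w := by
        rw [eq_neg_iff_add_eq_zero, add_comm]; exact h1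
      rcases hβ' w with h | h
      · exact absurd (by rw [h2, h, neg_zero]) hf0
      · rw [h2, ord_neg]; exact h
  have := ((mem_riemannRochSpace_iff.mp (hL hfL)) v).resolve_left hf0
  omega

end

end Fermat.Agent.S27.Riemann
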